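import Mathlib

/-!
# S14 / Thaine : two general lemmas on Dedekind domains
-/

set_option autoImplicit false

namespace Fermat.Agent.S14.ThaineRel

open Ideal UniqueFactorizationMonoid

section
variable {B : Type*} [CommRing B] [IsDedekindDomain B]

/-- If `x` and `y` have the same (finite) multiplicity at the prime `P`, then `d * x = c * y`
with `c, d ∉ P`. -/
theorem exists_notMem_mul_eq (P : Ideal B) [hP : P.IsPrime] (hP0 : P ≠ ⊥) {x y : B}
    (hx : x ≠ 0) (hy : y ≠ 0)
    (h : emultiplicity P (span {x}) = emultiplicity P (span {y})) :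
    ∃ c d : B, c ∉ P ∧ d ∉ P ∧ d * x = c * y := by
  classical
  have hPm : P.IsMaximal := hP.isMaximal hP0
  have hPp : Prime P := Ideal.prime_of_isPrime hP0 hP
  have hx' : (span {x} : Ideal B) ≠ ⊥ := by simpa using hx
  have hy' : (span {y} : Ideal B) ≠ ⊥ := by simpa using hy
  obtain ⟨Q, hQ, hyQ⟩ := Ideal.eq_prime_pow_mul_coprime hy' P
  obtain ⟨Q', -, hxQ⟩ := Ideal.eq_prime_pow_mul_coprime hx' P
  have hcount : (normalizedFactors (span {x} : Ideal B)).count P
      = (normalizedFactors (span {y} : Ideal B)).count P := by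
    rw [emultiplicity_eq_count_normalizedFactors hPp.irreducible hx',
      emultiplicity_eq_count_normalizedFactors hPp.irreducible hy', normalize_eq] at h
    exact_mod_cast h
  obtain ⟨d, hdQ, hdP⟩ : ∃ d ∈ Q, d ∉ P := by
    by_contra hcon
    push Not at hcon
    have : Q ≤ P := fun d hd => hcon d hd
    rw [sup_of_le_left this] at hQ
    exact hPm.ne_top hQ
  rw [hcount] at hxQ
  generalize (normalizedFactors (span {y} : Ideal B)).count P = m at hxQ hyQ
  have hxm : x ∈ P ^ m := by
    have h0 : x ∈ (span {x} : Ideal B) := mem_span_singleton_self x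
    have h1 : (span {x} : Ideal B) ≤ P ^ m := hxQ.le.trans Ideal.mul_le_left
    exact h1 h0
  have hdx : d * x ∈ (span {y} : Ideal B) := by
    rw [hyQ, mul_comm d x]
    exact Ideal.mul_mem_mul hxm hdQ
  obtain ⟨c, hc⟩ := mem_span_singleton'.mp hdx
  refine ⟨c, d, ?_, hdP, hc.symm⟩
  intro hcP
  have h1 : emultiplicity P (span {d * x}) = emultiplicity P (span {c * y}) := by rw [hc]
  rw [← span_singleton_mul_span_singleton, ← span_singleton_mul_span_singleton,
    emultiplicity_mul hPp, emultiplicity_mul hPp, h] at h1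
  have hd0 : emultiplicity P (span {d}) = 0 := by
    rw [emultiplicity_eq_zero, dvd_span_singleton]
    exact hdP
  have hfin : emultiplicity P (span {y}) ≠ ⊤ := by
    rw [emultiplicity_eq_count_normalizedFactors hPp.irreducible hy']
    exact ENat.natCast_ne_top _
  rw [hd0, zero_add] at h1
  have hc0 : emultiplicity P (span {c}) = 0 := by
    by_contra hne
    have : emultiplicity P (span {y}) < emultiplicity P (span {c}) + emultiplicity P (span {y}) := by
      exact ENat.lt_add_left hfin (pos_iff_ne_zero.mpr hne)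
    exact absurd h1 (ne_of_lt this)
  rw [emultiplicity_eq_zero, dvd_span_singleton] at hc0
  exact hc0 hcP

/-- Factorisation of an ideal all of whose prime multiplicities outside `S` are divisible
by `p`. -/
theorem exists_eq_prod_mul_pow (I : Ideal B) (hI : I ≠ ⊥) (S : Finset (Ideal B)) (p : ℕ)
    (h : ∀ P ∈ normalizedFactors I, P ∉ S → p ∣ (normalizedFactors I).count P) :
    ∃ C : Ideal B, I = (∏ P ∈ S, P ^ (normalizedFactors I).count P) * C ^ p := by
  classical
  set F := normalizedFactors I with hF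
  have h1 : F.prod = I := Ideal.prod_normalizedFactors_eq_self hI
  have h2 := Finset.prod_multiset_count_of_subset F (S ∪ F.toFinset) Finset.subset_union_right
  rw [h1, ← Finset.union_sdiff_self_eq_union, Finset.prod_union Finset.disjoint_sdiff] at h2
  refine ⟨∏ P ∈ F.toFinset \ S, P ^ (F.count P / p), ?_⟩
  rw [h2, ← Finset.prod_pow]
  congr 1
  refine Finset.prod_congr rfl fun P hP => ?_
  rw [Finset.mem_sdiff, Multiset.mem_toFinset] at hP
  rw [← pow_mul, Nat.div_mul_cancel (h P hP.1 hP.2)]

/-- The local computation: `T` acts trivially modulo `P`, `T γ = ε γ`, `T π = σ π` and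
`v_P(γ) = v_P(π^r)`; then `ε ≡ σ^r mod P`. -/
theorem local_step (P : Ideal B) [hP : P.IsPrime] (hP0 : P ≠ ⊥)
    (T : B →+* B) (hT : ∀ x, T x - x ∈ P) {π γ ε σ : B} (hγ : γ ≠ 0) (hπ : π ≠ 0)
    (hTγ : T γ = ε * γ) (hTπ : T π = σ * π) (r : ℕ)
    (h : emultiplicity P (span {γ}) = emultiplicity P (span {π ^ r})) : ε - σ ^ r ∈ P := by
  obtain ⟨c, d, hc, hd, hcd⟩ := exists_notMem_mul_eq P hP0 hγ (pow_ne_zero r hπ) h
  have h1 : T d * (ε * γ) = T c * (σ * π) ^ r := by
    have := congrArg T hcd
    rwa [map_mul, map_mul, map_pow, hTγ, hTπ] at this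
  have h2 : (T d * ε * c) * π ^ r = (d * T c * σ ^ r) * π ^ r := by
    calc (T d * ε * c) * π ^ r = T d * ε * (c * π ^ r) := by ring
      _ = T d * ε * (d * γ) := by rw [hcd]
      _ = d * (T d * (ε * γ)) := by ring
      _ = d * (T c * (σ * π) ^ r) := by rw [h1]
      _ = (d * T c * σ ^ r) * π ^ r := by ring
  have h3 : T d * ε * c = d * T c * σ ^ r := mul_right_cancel₀ (pow_ne_zero r hπ) h2
  have h4 : d * c * (ε - σ ^ r) ∈ P := by
    have e : d * c * (ε - σ ^ r) = d * σ ^ r * (T c - c) - ε * c * (T d - d) := by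
      linear_combination h3
    rw [e]
    exact P.sub_mem (P.mul_mem_left _ (hT c)) (P.mul_mem_left _ (hT d))
  rcases hP.mem_or_mem h4 with h5 | h5
  · rcases hP.mem_or_mem h5 with h6 | h6
    · exact absurd h6 hd
    · exact absurd h6 hc
  · exact h5

end

end Fermat.Agent.S14.ThaineRel
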