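import Mathlib

/-!
# S14 / Thaine : the tower `ℚ ⊆ K = ℚ(ζ_m) ⊆ L = K(ζ_n)`, `m`, `n` coprime
-/

set_option autoImplicit false

namespace Fermat.Agent.S14.ThaineRel

open Polynomial

theorem isPrimitiveRoot_mul {M : Type*} [CommMonoid M] {x y : M} {m n : ℕ}
    (hx : IsPrimitiveRoot x m) (hy : IsPrimitiveRoot y n) (hmn : m.Coprime n) :
    IsPrimitiveRoot (x * y) (m * n) := by
  have h := (Commute.all x y).orderOf_mul_eq_mul_orderOf_of_coprime
    (by rwa [← hx.eq_orderOf, ← hy.eq_orderOf])
  rw [← hx.eq_orderOf, ← hy.eq_orderOf] at h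
  rw [← h]
  exact IsPrimitiveRoot.orderOf _

section Tower
variable (m n : ℕ) [NeZero m] [NeZero n] (K L : Type*) [Field K] [Field L] [CharZero K]
  [Algebra K L] [IsCyclotomicExtension {m} ℚ K] [IsCyclotomicExtension {n} K L]

include K in
/-- `L = ℚ(ζ_{mn})`. -/
theorem isCyclotomicExtension_mul [CharZero L] (hmn : m.Coprime n) :
    IsCyclotomicExtension {m * n} ℚ L := by
  have h1 : IsCyclotomicExtension ({m} ∪ {n}) ℚ L :=
    IsCyclotomicExtension.trans {m} {n} ℚ K L (algebraMap K L).injective
  have hζm : IsPrimitiveRoot (algebraMap K L (IsCyclotomicExtension.zeta m ℚ K)) m :=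
    (IsCyclotomicExtension.zeta_spec m ℚ K).map_of_injective (algebraMap K L).injective
  have hζn : IsPrimitiveRoot (IsCyclotomicExtension.zeta n K L) n :=
    IsCyclotomicExtension.zeta_spec n K L
  have hζ := isPrimitiveRoot_mul hζm hζn hmn
  have h2 : IsCyclotomicExtension ({m} ∪ {n} ∪ {m * n}) ℚ L :=
    IsCyclotomicExtension.union_of_isPrimitiveRoot _ ℚ L hζ
  have e : ({m} ∪ {n} ∪ {m * n} : Set ℕ) = {m * n} ∪ {m} ∪ {n} := by
    ext x; simp only [Set.mem_union, Set.mem_singleton_iff]; tauto
  rw [e] at h2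
  have h3 : IsCyclotomicExtension ({m * n} ∪ {m}) ℚ L :=
    (IsCyclotomicExtension.iff_union_of_dvd ℚ L
      ⟨m * n, by simp, NeZero.ne _, Dvd.intro_left m rfl⟩).mpr h2
  exact (IsCyclotomicExtension.iff_union_of_dvd ℚ L
      ⟨m * n, by simp, NeZero.ne _, Dvd.intro n rfl⟩).mpr h3

theorem finrank_tower [CharZero L] (hmn : m.Coprime n) : Module.finrank K L = n.totient := by
  have := isCyclotomicExtension_mul m n K L hmn
  have h1 : Module.finrank ℚ K = m.totient :=
    IsCyclotomicExtension.finrank K (cyclotomic.irreducible_rat (NeZero.pos m))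
  have h2 : Module.finrank ℚ L = (m * n).totient :=
    IsCyclotomicExtension.finrank L (cyclotomic.irreducible_rat (NeZero.pos (m * n)))
  have h3 := Module.finrank_mul_finrank ℚ K L
  rw [h1, h2, Nat.totient_mul hmn] at h3
  exact Nat.eq_of_mul_eq_mul_left (Nat.totient_pos.mpr (NeZero.pos m)) h3

include L in
/-- The `n`-th cyclotomic polynomial stays irreducible over `ℚ(ζ_m)`. -/
theorem irreducible_cyclotomic_tower [CharZero L] (hmn : m.Coprime n) :
    Irreducible (cyclotomic n K) := by
  have hζ : IsPrimitiveRoot (IsCyclotomicExtension.zeta n K L) n :=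
    IsCyclotomicExtension.zeta_spec n K L
  set ζ := IsCyclotomicExtension.zeta n K L
  have hint : IsIntegral K ζ := (IsCyclotomicExtension.integral {n} K L).isIntegral ζ
  have hdvd : minpoly K ζ ∣ cyclotomic n K := by
    apply minpoly.dvd
    have : NeZero (n : L) := ⟨by exact_mod_cast NeZero.ne n⟩
    exact IsCyclotomicExtension.aeval_zeta n K L
  have hdeg : (minpoly K ζ).natDegree = n.totient := by
    rw [← hζ.powerBasis_dim K, ← (hζ.powerBasis K).finrank, finrank_tower m n K L hmn]
  have : cyclotomic n K = minpoly K ζ :=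
    eq_of_monic_of_dvd_of_natDegree_le (minpoly.monic hint) (cyclotomic.monic n K) hdvd
      (by rw [hdeg, natDegree_cyclotomic])
  rw [this]
  exact minpoly.irreducible hint

end Tower

section Norm
variable {n : ℕ} [NeZero n] {K L : Type*} [Field K] [Field L] [Algebra K L]
  [IsCyclotomicExtension {n} K L]

/-- `N_{L/K}(a - ζ) = Φ_n(a)`. -/
theorem norm_algebraMap_sub {ζ : L} (hζ : IsPrimitiveRoot ζ n)
    (hirr : Irreducible (cyclotomic n K)) (a : K) :
    Algebra.norm K (algebraMap K L a - ζ) = eval a (cyclotomic n K) := by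
  have := IsCyclotomicExtension.neZero' n K L
  let E := AlgebraicClosure L
  obtain ⟨z, hz⟩ := IsAlgClosed.exists_root _ (degree_cyclotomic_pos n E (NeZero.pos _)).ne.symm
  apply (algebraMap K E).injective
  let := IsCyclotomicExtension.finiteDimensional {n} K L
  let := IsCyclotomicExtension.isGalois {n} K L
  rw [Algebra.norm_eq_prod_embeddings]
  have Hprod : (Finset.univ.prod fun σ : L →ₐ[K] E => σ (algebraMap K L a - ζ))
      = eval (algebraMap K E a) (cyclotomic' n E) := by
    rw [cyclotomic', eval_prod, ← @Finset.prod_attach E E, ← Finset.univ_eq_attach]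
    refine Fintype.prod_equiv (hζ.embeddingsEquivPrimitiveRoots E hirr) _ _ fun σ => ?_
    simp
  have : NeZero (n : E) := NeZero.of_faithfulSMul K _ n
  rw [Hprod, cyclotomic', ← cyclotomic_eq_prod_X_sub_primitiveRoots (isRoot_cyclotomic_iff.1 hz),
    ← map_cyclotomic n (algebraMap K E), eval_map_apply]

end Norm

end Fermat.Agent.S14.ThaineRel
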