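import Fermat.Agent.S14.ThaineRel.Hilbert90
import Fermat.Agent.S14.ThaineRel.Dedekind
import Fermat.Agent.S14.ThaineRel.Field

/-!
# S14 / Thaine : arithmetic in `L = K(ζ_ℓ)`
-/

set_option autoImplicit false

namespace Fermat.Agent.S14.ThaineRel

open Polynomial NumberField Ideal

theorem associated_prod_pow {A ι : Type*} [CommMonoid A] (s : Finset ι) (f : ι → A) (a : A)
    (h : ∀ i ∈ s, Associated (f i) a) : Associated (∏ i ∈ s, f i) (a ^ s.card) := by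
  classical
  induction s using Finset.induction_on with
  | empty => simp
  | insert i s his ih =>
    rw [Finset.prod_insert his, Finset.card_insert_of_notMem his, pow_succ']
    exact (h i (Finset.mem_insert_self i s)).mul_mul
      (ih fun j hj => h j (Finset.mem_insert_of_mem hj))

/-- `(ζ-1)^(ℓ-1) ~ ℓ` in any domain. -/
theorem associated_sub_one_pow {A : Type*} [CommRing A] [IsDomain A] {ℓ : ℕ} (hℓ : ℓ.Prime)
    {ζ : A} (hζ : IsPrimitiveRoot ζ ℓ) : Associated ((ζ - 1) ^ (ℓ - 1)) (ℓ : A) := by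
  obtain ⟨n, rfl⟩ : ∃ n, ℓ = n + 1 := ⟨ℓ - 1, (Nat.succ_pred_eq_of_pos hℓ.pos).symm⟩
  have h1 := hζ.prod_pow_sub_one_eq_order
  have h2 : Associated (∏ k ∈ Finset.range n, (ζ ^ (k + 1) - 1)) ((ζ - 1) ^ (Finset.range n).card) := by
    refine associated_prod_pow _ _ _ fun k hk => ?_
    refine (hζ.associated_sub_one_pow_sub_one_of_coprime ?_).symm
    exact (Nat.coprime_of_lt_prime (Nat.succ_ne_zero k)
      (by simpa using hk) hℓ).symm
  rw [Finset.card_range] at h2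
  rw [Nat.add_sub_cancel, Nat.cast_add, Nat.cast_one, ← h1]
  refine h2.symm.trans ?_
  have hu : IsUnit ((-1 : A) ^ n) := (isUnit_one.neg).pow n
  exact (associated_isUnit_mul_left_iff hu).mpr (Associated.refl _) |>.symm

section Gen
variable {ℓ : ℕ} [NeZero ℓ] [Fact ℓ.Prime] {K : Type*} (L : Type*) [Field K] [Field L] [Algebra K L]
  [IsCyclotomicExtension {ℓ} K L]

theorem exists_generator (hirr : Irreducible (cyclotomic ℓ K)) :
    ∃ (τ : L ≃ₐ[K] L) (s : ℕ), (∀ σ, σ ∈ Subgroup.zpowers τ) ∧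
      τ (IsCyclotomicExtension.zeta ℓ K L) = (IsCyclotomicExtension.zeta ℓ K L) ^ s := by
  obtain ⟨t, ht⟩ := IsCyclic.exists_generator (α := (ZMod ℓ)ˣ)
  let e := IsCyclotomicExtension.autEquivPow L hirr
  refine ⟨e.symm t, (t : ZMod ℓ).val, fun σ => ?_, ?_⟩
  · obtain ⟨k, hk⟩ := Subgroup.mem_zpowers_iff.mp (ht (e σ))
    refine Subgroup.mem_zpowers_iff.mpr ⟨k, ?_⟩
    rw [← map_zpow, hk, MulEquiv.symm_apply_apply]
  · have h1 := (IsCyclotomicExtension.zeta_spec ℓ K L).autToPow_spec K (e.symm t)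
    have h2 : (IsCyclotomicExtension.zeta_spec ℓ K L).autToPow K (e.symm t) = t :=
      e.apply_symm_apply t
    rw [h2] at h1
    exact h1.symm

end Gen


section NormEps
variable {p ℓ : ℕ} [NeZero ℓ] {K L : Type*} [Field K] [Field L] [Algebra K L]
  [IsCyclotomicExtension {ℓ} K L]

/-- `N_{L/K}(1 - ζ_p ζ_ℓ) = 1` when `ℓ ≡ 1 mod p`. -/
theorem norm_one_sub_mul (hℓ : ℓ.Prime) (hp : 1 < p) (hℓp : ℓ % p = 1) {ζ : K} (hζ : IsPrimitiveRoot ζ p)
    {ξ : L} (hξ : IsPrimitiveRoot ξ ℓ) (hirr : Irreducible (cyclotomic ℓ K)) :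
    Algebra.norm K (1 - algebraMap K L ζ * ξ) = 1 := by
  have hζ0 : ζ ≠ 0 := hζ.ne_zero (by omega)
  have e1 : 1 - algebraMap K L ζ * ξ = algebraMap K L ζ * (algebraMap K L ζ⁻¹ - ξ) := by
    rw [mul_sub, ← map_mul, mul_inv_cancel₀ hζ0, map_one]
  have hfin : Module.finrank K L = ℓ - 1 := by
    rw [IsCyclotomicExtension.finrank L hirr, Nat.totient_prime hℓ]
  obtain ⟨k, hk⟩ : ∃ k, ℓ = p * k + 1 := ⟨ℓ / p, by
    have := Nat.div_add_mod ℓ p
    omega⟩
  have : Fact ℓ.Prime := ⟨hℓ⟩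
  rw [e1, map_mul, Algebra.norm_algebraMap, norm_algebraMap_sub hξ hirr, hfin, cyclotomic_prime,
    eval_geom_sum]
  have h1 : ζ ^ (ℓ - 1) = 1 := by
    rw [hk, Nat.add_sub_cancel, pow_mul, hζ.pow_eq_one, one_pow]
  have hw : ζ⁻¹ ≠ 1 := by
    intro h
    exact hζ.ne_one hp (inv_eq_one.mp h)
  have h2 : (∑ i ∈ Finset.range ℓ, ζ⁻¹ ^ i) * (ζ⁻¹ - 1) = 1 * (ζ⁻¹ - 1) := by
    rw [geom_sum_mul, one_mul, hk, pow_succ, pow_mul, inv_pow, hζ.pow_eq_one, inv_one, one_pow,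
      one_mul]
  rw [h1, one_mul]
  exact mul_right_cancel₀ (sub_ne_zero.mpr hw) h2

end NormEps

section Main
variable {p ℓ : ℕ} [hpF : Fact p.Prime] [hℓF : Fact ℓ.Prime]
  {K : Type*} (L : Type*) [Field K] [NumberField K] [IsCyclotomicExtension {p} ℚ K]
  [Field L] [NumberField L] [Algebra K L] [IsCyclotomicExtension {ℓ} K L]

omit hℓF in
theorem coprime_of_mod (hℓp : ℓ % p = 1) : p.Coprime ℓ := by
  rw [Nat.Prime.coprime_iff_not_dvd hpF.out]
  intro h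
  rw [Nat.mod_eq_zero_of_dvd h] at hℓp
  exact zero_ne_one hℓp

theorem exists_gamma (hℓp : ℓ % p = 1) {ζ : K} (hζ : IsPrimitiveRoot ζ p) :
    ∃ (τ : L ≃ₐ[K] L) (s : ℕ) (γ : 𝓞 L), γ ≠ 0 ∧ (∀ σ, σ ∈ Subgroup.zpowers τ) ∧
      τ (IsCyclotomicExtension.zeta ℓ K L) = IsCyclotomicExtension.zeta ℓ K L ^ s ∧
      τ (γ : L) = (1 - algebraMap K L ζ * IsCyclotomicExtension.zeta ℓ K L) * (γ : L) := by
  have : NeZero p := ⟨hpF.out.ne_zero⟩
  have : NeZero ℓ := ⟨hℓF.out.ne_zero⟩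
  have hirr : Irreducible (cyclotomic ℓ K) :=
    irreducible_cyclotomic_tower p ℓ K L (coprime_of_mod hℓp)
  have : FiniteDimensional K L := IsCyclotomicExtension.finiteDimensional {ℓ} K L
  have : IsGalois K L := IsCyclotomicExtension.isGalois {ℓ} K L
  obtain ⟨τ, s, hτ, hs⟩ := exists_generator L hirr
  have hN := norm_one_sub_mul hℓF.out hpF.out.one_lt hℓp hζ
    (IsCyclotomicExtension.zeta_spec ℓ K L) hirr
  set ε := 1 - algebraMap K L ζ * IsCyclotomicExtension.zeta ℓ K L with hε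
  have hε0 : ε ≠ 0 := by
    intro h
    rw [h, Algebra.norm_zero] at hN
    exact zero_ne_one hN
  have hN' : Algebra.norm K ε⁻¹ = 1 := by rw [Algebra.norm_inv, hN, inv_one]
  obtain ⟨y, hy0, hy⟩ := hilbert90 τ hτ hN'
  have hy' : τ y = ε * y := by
    rw [← hy, ← mul_assoc, mul_inv_cancel₀ hε0, one_mul, hy]
  have halg : IsAlgebraic ℤ y :=
    (IsFractionRing.isAlgebraic_iff ℤ ℚ L).mpr (Algebra.IsAlgebraic.isAlgebraic y)
  obtain ⟨d, hd0, hd⟩ := halg.exists_integral_multiple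
  refine ⟨τ, s, ⟨d • y, hd⟩, ?_, hτ, hs, ?_⟩
  · intro h
    have h1 : d • y = 0 := congrArg Subtype.val h
    rw [zsmul_eq_mul] at h1
    rcases mul_eq_zero.mp h1 with h2 | h2
    · exact hd0 (by exact_mod_cast h2)
    · exact hy0 h2
  · change τ (d • y) = ε * (d • y)
    rw [zsmul_eq_mul, map_mul, map_intCast, hy']
    ring

end Main

end Fermat.Agent.S14.ThaineRel
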