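import Fermat.Agent.S14.ThaineRel.Field

/-!
# S14 / Thaine : ramification indices in `L = K(ζ_ℓ)` over `K = ℚ(ζ_p)`
-/

set_option autoImplicit false

namespace Fermat.Agent.S14.ThaineRel

open NumberField Ideal

theorem exists_prime_liesOver {K : Type*} [Field K] [NumberField K] (𝔮 : Ideal (𝓞 K))
    [h𝔮 : 𝔮.IsPrime] (h0 : 𝔮 ≠ ⊥) : ∃ q : ℕ, q.Prime ∧ 𝔮.LiesOver (span {(q : ℤ)}) := by
  have hP : (𝔮.under ℤ).IsPrime := inferInstance
  have hP0 : 𝔮.under ℤ ≠ ⊥ := Ideal.IsIntegral.comap_ne_bot ℤ h0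
  obtain ⟨g, hg⟩ : ∃ g : ℤ, 𝔮.under ℤ = span {g} :=
    ⟨_, (Submodule.IsPrincipal.span_singleton_generator (𝔮.under ℤ)).symm⟩
  have hg0 : g ≠ 0 := by
    rintro rfl
    exact hP0 (by simpa using hg)
  have hgp : Prime g := by
    rw [hg] at hP
    exact (Ideal.span_singleton_prime hg0).mp hP
  refine ⟨g.natAbs, Int.prime_iff_natAbs_prime.mp hgp, ?_⟩
  rw [Int.span_natAbs, ← hg]
  exact ⟨rfl⟩

section
variable {p ℓ : ℕ} [hpF : Fact p.Prime] [hℓF : Fact ℓ.Prime]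
  {K L : Type*} [Field K] [NumberField K] [IsCyclotomicExtension {p} ℚ K]
  [Field L] [NumberField L] [Algebra K L] [IsCyclotomicExtension {ℓ} K L]

/-- Primes of `K` not above `ℓ` are unramified in `L`. -/
theorem ramificationIdx_of_notMem (hpℓ : p.Coprime ℓ) (𝔮 : Ideal (𝓞 K)) [𝔮.IsPrime] (h0 : 𝔮 ≠ ⊥)
    (hℓ𝔮 : (ℓ : 𝓞 K) ∉ 𝔮) (𝔔 : Ideal (𝓞 L)) [𝔔.IsPrime] [𝔔.LiesOver 𝔮] :
    𝔔.ramificationIdx (𝓞 K) = 1 := by
  have : NeZero p := ⟨hpF.out.ne_zero⟩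
  have : NeZero ℓ := ⟨hℓF.out.ne_zero⟩
  have hL : IsCyclotomicExtension {p * ℓ} ℚ L := isCyclotomicExtension_mul p ℓ K L hpℓ
  obtain ⟨q, hq, hlo⟩ := exists_prime_liesOver 𝔮 h0
  have : Fact q.Prime := ⟨hq⟩
  have hlo' : 𝔔.LiesOver (span {(q : ℤ)}) := LiesOver.trans 𝔔 𝔮 _
  have htower := Ideal.ramificationIdx_tower (R := ℤ) 𝔮 𝔔
  have hqℓ : q ≠ ℓ := by
    rintro rfl
    apply hℓ𝔮
    have h1 : ((q : ℤ)) ∈ 𝔮.under ℤ := by
      rw [← hlo.over]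
      exact mem_span_singleton_self _
    simpa using h1
  by_cases hqp : q = p
  · subst hqp
    have h1 : 𝔔.ramificationIdx ℤ = q ^ 0 * (q - 1) :=
      IsCyclotomicExtension.Rat.ramificationIdx_eq (q * ℓ) L 𝔔 (m := ℓ) (k := 0) (by simp)
        (fun h => hqℓ ((Nat.prime_dvd_prime_iff_eq hq hℓF.out).mp h))
    have h2 : 𝔮.ramificationIdx ℤ = q - 1 :=
      IsCyclotomicExtension.Rat.ramificationIdx_eq_of_prime q K 𝔮
    rw [h1, h2, pow_zero, one_mul] at htower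
    have hpos : 0 < q - 1 := Nat.sub_pos_of_lt hq.one_lt
    exact (Nat.eq_of_mul_eq_mul_left hpos (by rw [mul_one]; exact htower)).symm
  · have h1 : 𝔔.ramificationIdx ℤ = 1 :=
      IsCyclotomicExtension.Rat.ramificationIdx_eq_of_not_dvd q L 𝔔 (m := p * ℓ) (by
        intro h
        rcases (Nat.Prime.dvd_mul hq).mp h with h | h
        · exact hqp ((Nat.prime_dvd_prime_iff_eq hq hpF.out).mp h)
        · exact hqℓ ((Nat.prime_dvd_prime_iff_eq hq hℓF.out).mp h))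
    rw [h1] at htower
    exact Nat.eq_one_of_mul_eq_one_left htower.symm

omit [IsCyclotomicExtension {p} ℚ K] [Algebra K L] [IsCyclotomicExtension {ℓ} K L] [NumberField K] in
/-- Primes of `L` above `ℓ` have absolute ramification index `ℓ - 1`. -/
theorem ramificationIdx_int_of_mem [IsCyclotomicExtension {p * ℓ} ℚ L] (hpℓ : p.Coprime ℓ)
    (𝔏 : Ideal (𝓞 L)) [𝔏.IsPrime]
    [𝔏.LiesOver (span {(ℓ : ℤ)})] : 𝔏.ramificationIdx ℤ = ℓ - 1 := by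
  have h1 : 𝔏.ramificationIdx ℤ = ℓ ^ 0 * (ℓ - 1) :=
    IsCyclotomicExtension.Rat.ramificationIdx_eq (p * ℓ) L 𝔏 (m := p) (k := 0)
      (by rw [zero_add, pow_one, mul_comm])
      (fun h => by
        have := (Nat.prime_dvd_prime_iff_eq hℓF.out hpF.out).mp h
        subst this
        simp [Nat.coprime_self] at hpℓ
        exact hℓF.out.one_lt.ne' hpℓ)
  rw [h1, pow_zero, one_mul]

/-- Primes of `K` above `ℓ` are totally ramified in `L`. -/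
theorem ramificationIdx_of_mem (hpℓ : p.Coprime ℓ) (𝔩 : Ideal (𝓞 K)) [𝔩.IsPrime]
    [𝔩.LiesOver (span {(ℓ : ℤ)})] (𝔏 : Ideal (𝓞 L)) [𝔏.IsPrime] [𝔏.LiesOver 𝔩] :
    𝔏.ramificationIdx (𝓞 K) = ℓ - 1 := by
  have : NeZero p := ⟨hpF.out.ne_zero⟩
  have hlo' : 𝔏.LiesOver (span {(ℓ : ℤ)}) := LiesOver.trans 𝔏 𝔩 _
  have htower := Ideal.ramificationIdx_tower (R := ℤ) 𝔩 𝔏
  have : NeZero ℓ := ⟨hℓF.out.ne_zero⟩
  have hL : IsCyclotomicExtension {p * ℓ} ℚ L := isCyclotomicExtension_mul p ℓ K L hpℓ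
  have h1 := ramificationIdx_int_of_mem hpℓ 𝔏
  have h2 : 𝔩.ramificationIdx ℤ = 1 :=
    IsCyclotomicExtension.Rat.ramificationIdx_eq_of_not_dvd ℓ K 𝔩 (m := p) (fun h => by
        have := (Nat.prime_dvd_prime_iff_eq hℓF.out hpF.out).mp h
        subst this
        simp [Nat.coprime_self] at hpℓ
        exact hℓF.out.one_lt.ne' hpℓ)
  rw [h1, h2, one_mul] at htower
  exact htower.symm

end

end Fermat.Agent.S14.ThaineRel
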