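import Fermat.Agent.S14.ThaineRel.Arith
import Fermat.Agent.S14.ThaineRel.Ramif

/-!
# S14 / Thaine : the element `β = N_{L/K} γ`
-/

set_option autoImplicit false
set_option linter.unusedSectionVars false

namespace Fermat.Agent.S14.ThaineRel

open Polynomial NumberField Ideal

section
variable {K L : Type*} [Field K] [NumberField K] [Field L] [NumberField L] [Algebra K L]

theorem coe_algebraMap_ringOfIntegers (x : 𝓞 K) :
    ((algebraMap (𝓞 K) (𝓞 L) x : 𝓞 L) : L) = algebraMap K L (x : K) := rfl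

theorem smul_algebraMap_ringOfIntegers (τ : L ≃ₐ[K] L) (x : 𝓞 K) :
    τ • (algebraMap (𝓞 K) (𝓞 L) x) = algebraMap (𝓞 K) (𝓞 L) x := by
  apply RingOfIntegers.ext
  change τ (algebraMap K L (x : K)) = algebraMap K L (x : K)
  exact τ.commutes _

/-- if `τ γ = ε γ` with `ε` a unit then all conjugates `τ^i γ` are associated to `γ` -/
theorem associated_pow_smul (τ : L ≃ₐ[K] L) {γ ε : 𝓞 L} (hε : IsUnit ε) (h : τ • γ = ε * γ)
    (i : ℕ) : Associated (τ ^ i • γ) γ := by
  induction i with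
  | zero => simp
  | succ i ih =>
    rw [pow_succ, mul_smul, h, smul_mul']
    have hu : IsUnit (τ ^ i • ε) := by
      have := hε.map (MulSemiringAction.toRingHom (L ≃ₐ[K] L) (𝓞 L) (τ ^ i))
      simpa using this
    exact (associated_isUnit_mul_left_iff hu).mpr ih

theorem algebraMap_norm_eq_prod [FiniteDimensional K L] [IsGalois K L] (τ : L ≃ₐ[K] L)
    (hτ : ∀ σ, σ ∈ Subgroup.zpowers τ) (γ : 𝓞 L) :
    algebraMap (𝓞 K) (𝓞 L) (RingOfIntegers.norm K γ)
      = ∏ i ∈ Finset.range (Module.finrank K L), τ ^ i • γ := by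
  apply RingOfIntegers.ext
  rw [RingOfIntegers.coe_algebraMap_norm, norm_eq_prod_range τ hτ, orderOf_eq_finrank τ hτ]
  have h1 : ((∏ i ∈ Finset.range (Module.finrank K L), τ ^ i • γ : 𝓞 L) : L)
      = ∏ i ∈ Finset.range (Module.finrank K L), ((τ ^ i • γ : 𝓞 L) : L) :=
    map_prod (algebraMap (𝓞 L) L) _ _
  rw [h1]
  rfl

theorem map_span_norm [FiniteDimensional K L] [IsGalois K L] (τ : L ≃ₐ[K] L)
    (hτ : ∀ σ, σ ∈ Subgroup.zpowers τ) {γ ε : 𝓞 L} (hε : IsUnit ε) (h : τ • γ = ε * γ) :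
    (span {RingOfIntegers.norm K γ} : Ideal (𝓞 K)).map (algebraMap (𝓞 K) (𝓞 L))
      = span {γ} ^ (Module.finrank K L) := by
  rw [Ideal.map_span, Set.image_singleton, algebraMap_norm_eq_prod τ hτ, span_singleton_pow,
    span_singleton_eq_span_singleton]
  have := associated_prod_pow (Finset.range (Module.finrank K L)) (fun i => τ ^ i • γ) γ
    (fun i _ => associated_pow_smul τ hε h i)
  rwa [Finset.card_range] at this

end


theorem ringHom_sub_mem_of_adjoin {B : Type*} [CommRing B] (T : B →+* B) (J : Ideal B) (μ : B)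
    (htop : Algebra.adjoin ℤ {μ} = ⊤) (hμ : T μ - μ ∈ J) (x : B) : T x - x ∈ J := by
  have hx : x ∈ Algebra.adjoin ℤ {μ} := htop ▸ Algebra.mem_top
  induction hx using Algebra.adjoin_induction with
  | mem y hy =>
    rw [Set.mem_singleton_iff] at hy
    rw [hy]; exact hμ
  | algebraMap r => simp
  | add y z _ _ hy hz =>
    have : T (y + z) - (y + z) = (T y - y) + (T z - z) := by rw [map_add]; ring
    rw [this]; exact J.add_mem hy hz
  | mul y z _ _ hy hz =>
    have : T (y * z) - y * z = T y * (T z - z) + z * (T y - y) := by rw [map_mul]; ring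
    rw [this]; exact J.add_mem (J.mul_mem_left _ hz) (J.mul_mem_left _ hy)

section
variable {A B : Type*} [CommRing A] [IsDedekindDomain A] [CommRing B] [IsDedekindDomain B]
  [Algebra A B] [FaithfulSMul A B] [Module.IsTorsionFree A B]

theorem emultiplicity_relation (𝔮 : Ideal A) [h𝔮 : 𝔮.IsPrime] (h0 : 𝔮 ≠ ⊥) (𝔔 : Ideal B)
    [h𝔔 : 𝔔.IsPrime] [𝔔.LiesOver 𝔮] {β : A} (hβ : β ≠ 0) {γ : B} {n : ℕ}
    (h : (span {β} : Ideal A).map (algebraMap A B) = span {γ} ^ n) :
    (𝔔.ramificationIdx A : ℕ∞) * emultiplicity 𝔮 (span {β})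
      = n * emultiplicity 𝔔 (span {γ}) := by
  have h𝔔0 : 𝔔 ≠ ⊥ := Ideal.ne_bot_of_liesOver_of_ne_bot h0 𝔔
  have hp𝔮 : Prime 𝔮 := Ideal.prime_of_isPrime h0 h𝔮
  have hp𝔔 : Prime 𝔔 := Ideal.prime_of_isPrime h𝔔0 h𝔔
  have h1 := IsDedekindDomain.emultiplicity_map_eq_ramificationIdx'_mul (S := B)
    (I := span {β}) (v := 𝔮) (w := 𝔔) (by simpa using hβ) hp𝔮.irreducible hp𝔔.irreducible h𝔔0
  rw [h, emultiplicity_pow hp𝔔, ramificationIdx'_eq_ramificationIdx 𝔮 𝔔 h0] at h1
  exact h1.symm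

theorem emultiplicity_span_eq_count (P : Ideal B) [hP : P.IsPrime] (hP0 : P ≠ ⊥) {x : B}
    (hx : x ≠ 0) : emultiplicity P (span {x})
      = ((UniqueFactorizationMonoid.normalizedFactors (span {x} : Ideal B)).count P : ℕ) := by
  classical
  rw [UniqueFactorizationMonoid.emultiplicity_eq_count_normalizedFactors
    (Ideal.prime_of_isPrime hP0 hP).irreducible (by simpa using hx), normalize_eq]

end

end Fermat.Agent.S14.ThaineRel
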