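import Mathlib

/-!
# S14 / Thaine : cyclic Hilbert 90, universe polymorphic

`L/K` finite Galois with group generated by `g`.  If `N_{L/K} x = 1` then `x * g y = y`
for some `y ≠ 0`.  Also the product formula `N x = ∏_{i<n} g^i x`.
-/

set_option autoImplicit false

namespace Fermat.Agent.S14.ThaineRel

section
variable {K L : Type*} [Field K] [Field L] [Algebra K L] [FiniteDimensional K L] [IsGalois K L]

omit [IsGalois K L] in
/-- product over a cyclic Galois group as a product over a range -/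
theorem prod_aut_eq_prod_range (g : L ≃ₐ[K] L) (hg : ∀ x, x ∈ Subgroup.zpowers g)
    (f : (L ≃ₐ[K] L) → L) :
    ∏ σ : L ≃ₐ[K] L, f σ = ∏ i ∈ Finset.range (orderOf g), f (g ^ i) := by
  classical
  symm
  refine Finset.prod_bij (fun i _ => g ^ i) (fun _ _ => Finset.mem_univ _) ?_ ?_ (fun _ _ => rfl)
  · intro i hi j hj h
    exact pow_injOn_Iio_orderOf (by simpa using hi) (by simpa using hj) h
  · intro σ _
    have h1 : σ ∈ Submonoid.powers g := by
      rw [(isOfFinOrder_of_finite g).mem_powers_iff_mem_zpowers]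
      exact hg σ
    rw [mem_powers_iff_mem_range_orderOf] at h1
    obtain ⟨i, hi, rfl⟩ := Finset.mem_image.mp h1
    exact ⟨i, hi, rfl⟩

theorem norm_eq_prod_range (g : L ≃ₐ[K] L) (hg : ∀ x, x ∈ Subgroup.zpowers g) (x : L) :
    algebraMap K L (Algebra.norm K x) = ∏ i ∈ Finset.range (orderOf g), (g ^ i) x := by
  rw [Algebra.norm_eq_prod_automorphisms]
  exact prod_aut_eq_prod_range g hg (fun σ => σ x)

theorem orderOf_eq_finrank (g : L ≃ₐ[K] L) (hg : ∀ x, x ∈ Subgroup.zpowers g) :
    orderOf g = Module.finrank K L := by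
  rw [orderOf_eq_card_of_forall_mem_zpowers hg, IsGalois.card_aut_eq_finrank]

/-- Cyclic Hilbert 90. -/
theorem hilbert90 (g : L ≃ₐ[K] L) (hg : ∀ x, x ∈ Subgroup.zpowers g) {x : L}
    (hx : Algebra.norm K x = 1) : ∃ y : L, y ≠ 0 ∧ x * g y = y := by
  classical
  set n := orderOf g with hn
  have hnpos : 0 < n := orderOf_pos g
  -- partial products
  let c : ℕ → L := fun i => ∏ k ∈ Finset.range i, (g ^ k) x
  have hc0 : c 0 = 1 := by simp [c]
  have hcn : c n = 1 := by
    have := norm_eq_prod_range g hg x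
    rw [hx, map_one] at this
    exact this.symm
  have hcs : ∀ i, x * g (c i) = c (i + 1) := by
    intro i
    simp only [c]
    rw [map_prod, Finset.prod_range_succ']
    rw [mul_comm]
    congr 1
    refine Finset.prod_congr rfl fun k _ => ?_
    rw [pow_succ', AlgEquiv.mul_apply]
  -- linear independence of the characters `g^i`
  have hli : LinearIndependent L (fun i : Fin n => (((g ^ (i : ℕ) : L ≃ₐ[K] L) : L → L))) := by
    have h0 : LinearIndependent L (fun f : L →* L => (f : L → L)) := linearIndependent_monoidHom L L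
    have := h0.comp (fun i : Fin n => (((g ^ (i : ℕ) : L ≃ₐ[K] L) : L →ₐ[K] L) : L →* L)) ?_
    · exact this
    · intro i j hij
      have h1 : g ^ (i : ℕ) = g ^ (j : ℕ) := by
        ext z
        exact DFunLike.congr_fun hij z
      exact Fin.ext (pow_injOn_Iio_orderOf (Set.mem_Iio.mpr i.2) (Set.mem_Iio.mpr j.2) h1)
  -- there is `z` with `θ z ≠ 0`
  have hex : ∃ z : L, ∑ i : Fin n, c i * (g ^ (i : ℕ)) z ≠ 0 := by
    by_contra hcon
    push Not at hcon
    have h1 : ∑ i : Fin n, c i • (((g ^ (i : ℕ) : L ≃ₐ[K] L) : L → L)) = 0 := by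
      funext z
      simpa [Finset.sum_apply] using hcon z
    have h2 := (Fintype.linearIndependent_iff.mp hli) (fun i => c i) h1 ⟨0, hnpos⟩
    simp [hc0] at h2
  obtain ⟨z, hz⟩ := hex
  refine ⟨_, hz, ?_⟩
  rw [map_sum, Finset.mul_sum]
  rw [Fin.sum_univ_eq_sum_range (fun i => x * g (c i * (g ^ i) z)) n,
    Fin.sum_univ_eq_sum_range (fun i => c i * (g ^ i) z) n]
  have h3 : ∀ i, x * g (c i * (g ^ i) z) = c (i + 1) * (g ^ (i + 1)) z := by
    intro i
    rw [map_mul, ← mul_assoc, hcs, pow_succ', AlgEquiv.mul_apply]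
  simp_rw [h3]
  have h4 := Finset.sum_range_succ' (fun i => c i * (g ^ i) z) n
  rw [Finset.sum_range_succ (fun i => c i * (g ^ i) z) n] at h4
  have h5 : c n * (g ^ n) z = c 0 * (g ^ 0) z := by
    rw [hcn, hc0, hn, pow_orderOf_eq_one, pow_zero]
  rw [h5] at h4
  exact (add_right_cancel h4).symm

end

end Fermat.Agent.S14.ThaineRel
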