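import Fermat.Agent.S14.ThaineRel.Global

set_option autoImplicit false
set_option linter.unusedSectionVars false

namespace Fermat.Agent.S14.ThaineRel

open Polynomial NumberField Ideal UniqueFactorizationMonoid

section
variable {p ℓ : ℕ} [hpF : Fact p.Prime] [hℓF : Fact ℓ.Prime]
  {K : Type*} (L : Type*) [Field K] [NumberField K] [IsCyclotomicExtension {p} ℚ K]
  [Field L] [NumberField L] [Algebra K L] [IsCyclotomicExtension {ℓ} K L]

/-- the local statement at a prime `𝔏` of `L` above `ℓ` -/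
theorem local_congruence (hℓp : ℓ % p = 1) {ζ : K} (hζ : IsPrimitiveRoot ζ p)
    (τ : L ≃ₐ[K] L) (s : ℕ) (γ : 𝓞 L) (hγ0 : γ ≠ 0)
    (hs : τ (IsCyclotomicExtension.zeta ℓ K L) = IsCyclotomicExtension.zeta ℓ K L ^ s)
    (hγ : τ (γ : L) = (1 - algebraMap K L ζ * IsCyclotomicExtension.zeta ℓ K L) * (γ : L))
    (𝔏 : Ideal (𝓞 L)) [h𝔏 : 𝔏.IsPrime] [𝔏.LiesOver (span {(ℓ : ℤ)})] (r : ℕ)
    (hr : emultiplicity 𝔏 (span {γ}) = r) :
    algebraMap (𝓞 K) (𝓞 L) ((1 - hζ.toInteger) - (s : 𝓞 K) ^ r) ∈ 𝔏 := by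
  have : NeZero p := ⟨hpF.out.ne_zero⟩
  have : NeZero ℓ := ⟨hℓF.out.ne_zero⟩
  have hpℓ := coprime_of_mod (p := p) hℓp
  have hL : IsCyclotomicExtension {p * ℓ} ℚ L := isCyclotomicExtension_mul p ℓ K L hpℓ
  have hξ := IsCyclotomicExtension.zeta_spec ℓ K L
  set ξ := IsCyclotomicExtension.zeta ℓ K L with hξdef
  set z : 𝓞 L := hξ.toInteger with hz
  set w : 𝓞 L := algebraMap (𝓞 K) (𝓞 L) hζ.toInteger with hw
  have hzprim : IsPrimitiveRoot z ℓ := hξ.toInteger_isPrimitiveRoot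
  let T : 𝓞 L →+* 𝓞 L := MulSemiringAction.toRingHom (L ≃ₐ[K] L) (𝓞 L) τ
  have hTz : T z = z ^ s := by
    apply RingOfIntegers.ext
    exact hs
  have hTw : T w = w := smul_algebraMap_ringOfIntegers τ _
  have hTγ : T γ = (1 - w * z) * γ := by
    apply RingOfIntegers.ext
    exact hγ
  have hℓ0 : (span {(ℓ : ℤ)} : Ideal ℤ) ≠ ⊥ := by
    simpa using hℓF.out.ne_zero
  have h𝔏0 : 𝔏 ≠ ⊥ := Ideal.ne_bot_of_liesOver_of_ne_bot hℓ0 𝔏
  have hπ0 : z - 1 ≠ 0 := sub_ne_zero.mpr (hzprim.ne_one hℓF.out.one_lt)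
  -- multiplicity of `π`
  have hmap : (span {(ℓ : ℤ)} : Ideal ℤ).map (algebraMap ℤ (𝓞 L)) = span {z - 1} ^ (ℓ - 1) := by
    rw [Ideal.map_span, Set.image_singleton, span_singleton_pow, span_singleton_eq_span_singleton]
    simpa using (associated_sub_one_pow hℓF.out hzprim).symm
  have hrel := emultiplicity_relation (span {(ℓ : ℤ)}) hℓ0 𝔏 (β := (ℓ : ℤ))
    (by exact_mod_cast hℓF.out.ne_zero) hmap
  have hprimeℓ : Prime (span {(ℓ : ℤ)} : Ideal ℤ) := Ideal.prime_of_isPrime hℓ0 inferInstance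
  have hπmult : emultiplicity 𝔏 (span {z - 1}) = 1 := by
    rw [ramificationIdx_int_of_mem hpℓ 𝔏,
      (FiniteMultiplicity.of_prime_left hprimeℓ hℓ0).emultiplicity_self,
      emultiplicity_span_eq_count 𝔏 h𝔏0 hπ0, mul_one] at hrel
    rw [emultiplicity_span_eq_count 𝔏 h𝔏0 hπ0]
    have h1 : ℓ - 1 = (ℓ - 1) * (normalizedFactors (span {z - 1} : Ideal (𝓞 L))).count 𝔏 := by
      exact_mod_cast hrel
    have hpos : 0 < ℓ - 1 := Nat.sub_pos_of_lt hℓF.out.one_lt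
    have h2 : (normalizedFactors (span {z - 1} : Ideal (𝓞 L))).count 𝔏 = 1 :=
      (Nat.eq_of_mul_eq_mul_left hpos (by rw [mul_one]; exact h1)).symm
    rw [h2]; rfl
  have hπmem : z - 1 ∈ 𝔏 := by
    rw [← dvd_span_singleton]
    by_contra hcon
    rw [← emultiplicity_eq_zero, hπmult] at hcon
    exact one_ne_zero hcon
  -- `T π = σ π`
  have hTπ : T (z - 1) = (∑ i ∈ Finset.range s, z ^ i) * (z - 1) := by
    rw [map_sub, map_one, hTz, geom_sum_mul]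
  have hpowmem : ∀ k : ℕ, z ^ k - 1 ∈ 𝔏 := by
    intro k
    rw [← geom_sum_mul]
    exact 𝔏.mul_mem_left _ hπmem
  -- `T` is trivial modulo `𝔏`
  have hμ : IsPrimitiveRoot (algebraMap K L ζ * ξ) (p * ℓ) :=
    isPrimitiveRoot_mul (hζ.map_of_injective (algebraMap K L).injective) hξ hpℓ
  have hμeq : hμ.toInteger = w * z := by
    apply RingOfIntegers.ext
    rfl
  have hT : ∀ x, T x - x ∈ 𝔏 := by
    refine ringHom_sub_mem_of_adjoin T 𝔏 hμ.toInteger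
      (IsCyclotomicExtension.Rat.adjoin_singleton_eq_top hμ) ?_
    rw [hμeq, map_mul, hTw, hTz]
    have : w * z ^ s - w * z = w * ((z ^ s - 1) - (z - 1)) := by ring
    rw [this]
    exact 𝔏.mul_mem_left _ (𝔏.sub_mem (hpowmem s) hπmem)
  have hmult : emultiplicity 𝔏 (span {γ}) = emultiplicity 𝔏 (span {(z - 1) ^ r}) := by
    rw [hr, ← span_singleton_pow, emultiplicity_pow (Ideal.prime_of_isPrime h𝔏0 h𝔏), hπmult, mul_one]
  have hloc := local_step 𝔏 h𝔏0 T hT hγ0 hπ0 hTγ hTπ r hmult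
  -- conclusion
  have hσ : (∑ i ∈ Finset.range s, z ^ i) - (s : 𝓞 L) ∈ 𝔏 := by
    have : (∑ i ∈ Finset.range s, z ^ i) - (s : 𝓞 L) = ∑ i ∈ Finset.range s, (z ^ i - 1) := by
      rw [Finset.sum_sub_distrib]; simp
    rw [this]
    exact 𝔏.sum_mem fun i _ => hpowmem i
  have hσr : (∑ i ∈ Finset.range s, z ^ i) ^ r - (s : 𝓞 L) ^ r ∈ 𝔏 := by
    obtain ⟨c, hc⟩ := sub_dvd_pow_sub_pow (∑ i ∈ Finset.range s, z ^ i) (s : 𝓞 L) r
    rw [hc]
    exact 𝔏.mul_mem_right _ hσ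
  have hfin : algebraMap (𝓞 K) (𝓞 L) ((1 - hζ.toInteger) - (s : 𝓞 K) ^ r)
      = ((1 - w * z) - (∑ i ∈ Finset.range s, z ^ i) ^ r) + w * (z - 1)
        + ((∑ i ∈ Finset.range s, z ^ i) ^ r - (s : 𝓞 L) ^ r) := by
    rw [map_sub, map_sub, map_one, map_pow, map_natCast]
    ring
  rw [hfin]
  exact 𝔏.add_mem (𝔏.add_mem hloc (𝔏.mul_mem_left _ hπmem)) hσr

include L in
theorem thaine_relation_aux (hℓp : ℓ % p = 1) {ζ : K} (hζ : IsPrimitiveRoot ζ p) :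
    ∃ (β : 𝓞 K) (s : ℕ) (R : Ideal (𝓞 K) → ℕ) (𝔠 : Ideal (𝓞 K)), β ≠ 0 ∧
      (∀ 𝔩 ∈ IsDedekindDomain.primesOverFinset (span {(ℓ : ℤ)}) (𝓞 K),
        (1 - hζ.toInteger) - (s : 𝓞 K) ^ R 𝔩 ∈ 𝔩) ∧
      span {β} = (∏ 𝔩 ∈ IsDedekindDomain.primesOverFinset (span {(ℓ : ℤ)}) (𝓞 K), 𝔩 ^ R 𝔩)
        * 𝔠 ^ p := by
  have : NeZero p := ⟨hpF.out.ne_zero⟩
  have : NeZero ℓ := ⟨hℓF.out.ne_zero⟩
  have hpℓ := coprime_of_mod (p := p) hℓp
  have hirr : Irreducible (cyclotomic ℓ K) := irreducible_cyclotomic_tower p ℓ K L hpℓ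
  have : FiniteDimensional K L := IsCyclotomicExtension.finiteDimensional {ℓ} K L
  have : IsGalois K L := IsCyclotomicExtension.isGalois {ℓ} K L
  have hfin : Module.finrank K L = ℓ - 1 := by
    rw [IsCyclotomicExtension.finrank L hirr, Nat.totient_prime hℓF.out]
  obtain ⟨k, hk⟩ : ∃ k, ℓ - 1 = p * k := ⟨ℓ / p, by
    have := Nat.div_add_mod ℓ p
    omega⟩
  have hℓ0 : (span {(ℓ : ℤ)} : Ideal ℤ) ≠ ⊥ := by
    simpa using hℓF.out.ne_zero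
  obtain ⟨τ, s, γ, hγ0, hτ, hs, hγ⟩ := exists_gamma L hℓp hζ
  have hξ := IsCyclotomicExtension.zeta_spec ℓ K L
  -- the unit `ε`
  let ε : 𝓞 L := 1 - algebraMap (𝓞 K) (𝓞 L) hζ.toInteger * hξ.toInteger
  have hγ' : τ • γ = ε * γ := by
    apply RingOfIntegers.ext
    exact hγ
  have hεu : IsUnit ε := by
    rw [← RingOfIntegers.isUnit_norm_of_isGalois K]
    have : RingOfIntegers.norm K ε = 1 := by
      apply RingOfIntegers.ext
      rw [RingOfIntegers.coe_norm]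
      exact norm_one_sub_mul hℓF.out hpF.out.one_lt hℓp hζ hξ hirr
    rw [this]
    exact isUnit_one
  set β : 𝓞 K := RingOfIntegers.norm K γ with hβ
  have hβ0 : β ≠ 0 := by
    intro h
    have h1 : Algebra.norm K (γ : L) = 0 := by
      rw [← RingOfIntegers.coe_norm, ← hβ, h]; rfl
    rw [Algebra.norm_eq_zero_iff] at h1
    exact hγ0 (RingOfIntegers.ext h1)
  have hmap := map_span_norm τ hτ hεu hγ'
  rw [hfin, ← hβ] at hmap
  have hβI : (span {β} : Ideal (𝓞 K)) ≠ ⊥ := by simpa using hβ0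
  obtain ⟨𝔠, h𝔠⟩ := exists_eq_prod_mul_pow (span {β}) hβI
    (IsDedekindDomain.primesOverFinset (span {(ℓ : ℤ)}) (𝓞 K)) p (by
      intro P hP hPS
      have hPprime : Prime P := prime_of_normalized_factor P hP
      have hP0 : P ≠ ⊥ := hPprime.ne_zero
      have hPi : P.IsPrime := Ideal.isPrime_of_prime hPprime
      have hPm : P.IsMaximal := hPi.isMaximal hP0
      have hℓP : (ℓ : 𝓞 K) ∉ P := by
        intro hmem
        apply hPS
        rw [IsDedekindDomain.mem_primesOverFinset_iff hℓ0]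
        refine ⟨hPi, ⟨?_⟩⟩
        have hle : (span {(ℓ : ℤ)} : Ideal ℤ) ≤ P.under ℤ := by
          rw [span_singleton_le_iff_mem]
          simpa [Ideal.under_def] using hmem
        exact (Ideal.IsMaximal.eq_of_le inferInstance (Ideal.IsPrime.ne_top inferInstance) hle)
      obtain ⟨𝔔, h𝔔m, h𝔔lo⟩ := exists_maximal_ideal_liesOver_of_isIntegral P (S := 𝓞 L)
      have h𝔔p : 𝔔.IsPrime := h𝔔m.isPrime
      have h𝔔0 : 𝔔 ≠ ⊥ := Ideal.ne_bot_of_liesOver_of_ne_bot hP0 𝔔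
      have hrel := emultiplicity_relation P hP0 𝔔 hβ0 hmap
      rw [ramificationIdx_of_notMem hpℓ P hP0 hℓP 𝔔, emultiplicity_span_eq_count P hP0 hβ0,
        emultiplicity_span_eq_count 𝔔 h𝔔0 hγ0] at hrel
      have h1 : 1 * (normalizedFactors (span {β} : Ideal (𝓞 K))).count P
          = (ℓ - 1) * (normalizedFactors (span {γ} : Ideal (𝓞 L))).count 𝔔 := by
        exact_mod_cast hrel
      rw [one_mul, hk, mul_assoc] at h1
      exact ⟨_, h1⟩)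
  refine ⟨β, s, fun 𝔩 => (normalizedFactors (span {β} : Ideal (𝓞 K))).count 𝔩, 𝔠, hβ0, ?_, h𝔠⟩
  intro 𝔩 h𝔩
  rw [IsDedekindDomain.mem_primesOverFinset_iff hℓ0] at h𝔩
  obtain ⟨h𝔩p, h𝔩lo⟩ := h𝔩
  have h𝔩0 : 𝔩 ≠ ⊥ := Ideal.ne_bot_of_liesOver_of_ne_bot hℓ0 𝔩
  have h𝔩m : 𝔩.IsMaximal := h𝔩p.isMaximal h𝔩0
  obtain ⟨𝔏, h𝔏m, h𝔏lo⟩ := exists_maximal_ideal_liesOver_of_isIntegral 𝔩 (S := 𝓞 L)
  have h𝔏p : 𝔏.IsPrime := h𝔏m.isPrime
  have h𝔏0 : 𝔏 ≠ ⊥ := Ideal.ne_bot_of_liesOver_of_ne_bot h𝔩0 𝔏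
  have h𝔏lo' : 𝔏.LiesOver (span {(ℓ : ℤ)}) := LiesOver.trans 𝔏 𝔩 _
  have hrel := emultiplicity_relation 𝔩 h𝔩0 𝔏 hβ0 hmap
  rw [ramificationIdx_of_mem hpℓ 𝔩 𝔏, emultiplicity_span_eq_count 𝔩 h𝔩0 hβ0,
    emultiplicity_span_eq_count 𝔏 h𝔏0 hγ0] at hrel
  have h1 : (ℓ - 1) * (normalizedFactors (span {β} : Ideal (𝓞 K))).count 𝔩
      = (ℓ - 1) * (normalizedFactors (span {γ} : Ideal (𝓞 L))).count 𝔏 := by
    exact_mod_cast hrel
  have hpos : 0 < ℓ - 1 := Nat.sub_pos_of_lt hℓF.out.one_lt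
  have h2 := Nat.eq_of_mul_eq_mul_left hpos h1
  have hloc := local_congruence L hℓp hζ τ s γ hγ0 hs hγ 𝔏
    ((normalizedFactors (span {β} : Ideal (𝓞 K))).count 𝔩)
    (by rw [emultiplicity_span_eq_count 𝔏 h𝔏0 hγ0, h2])
  have : (1 - hζ.toInteger) - (s : 𝓞 K) ^ (normalizedFactors (span {β} : Ideal (𝓞 K))).count 𝔩
      ∈ 𝔏.under (𝓞 K) := hloc
  rwa [← h𝔏lo.over] at this

end

end Fermat.Agent.S14.ThaineRel
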